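import Fermat.Agent.Corollaries.Kemnitz.Deg

/-!
# Kemnitz' conjecture: the numbers of zero-sum subsets modulo `p`
-/

namespace Fermat.Agent.Cor.Kemnitz

open Finset

section

variable {p : ℕ} [hp : Fact p.Prime] {ι : Type*} [DecidableEq ι] (v : ι → ZMod p × ZMod p)

/-- the number (modulo `p`) of the subsets with `k` elements and sum zero -/
noncomputable def N (k : ℕ) (s : Finset ι) : ZMod p :=
  ∑ t ∈ s.powersetCard k, if ∑ i ∈ t, v i = 0 then 1 else 0

/-- the alternating sum over the zero-sum subsets with `c + |t| ≡ 0` -/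
noncomputable def E (c : ZMod p) (s : Finset ι) : ZMod p :=
  ∑ t ∈ s.powerset, (-1) ^ t.card * if c + t.card = 0 ∧ ∑ i ∈ t, v i = 0 then 1 else 0

theorem sub_one_ne : p - 1 ≠ 0 := by
  have := hp.out.two_le
  omega

theorem pow_ind (x : ZMod p) : 1 - x ^ (p - 1) = if x = 0 then 1 else 0 := by
  split_ifs with h
  · rw [h, zero_pow sub_one_ne, sub_zero]
  · rw [ZMod.pow_card_sub_one_eq_one h, sub_self]

omit [DecidableEq ι] in
theorem ind_eq (c : ZMod p) (t : Finset ι) :
    (if c + t.card = 0 ∧ ∑ i ∈ t, v i = 0 then (1 : ZMod p) else 0) =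
      (1 - (c + ∑ _i ∈ t, (1 : ZMod p)) ^ (p - 1)) * (1 - (0 + ∑ i ∈ t, (v i).1) ^ (p - 1)) *
        (1 - (0 + ∑ i ∈ t, (v i).2) ^ (p - 1)) := by
  have h1 : ∑ _i ∈ t, (1 : ZMod p) = t.card := by simp
  have h2 : (∑ i ∈ t, v i = 0) ↔ (∑ i ∈ t, (v i).1 = 0 ∧ ∑ i ∈ t, (v i).2 = 0) := by
    rw [Prod.ext_iff, Prod.fst_sum, Prod.snd_sum]
    rfl
  rw [h1, pow_ind, pow_ind, pow_ind, zero_add, zero_add]
  simp only [h2]
  by_cases ha : c + (t.card : ZMod p) = 0 <;> by_cases hb : ∑ i ∈ t, (v i).1 = 0 <;>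
    by_cases hc : ∑ i ∈ t, (v i).2 = 0 <;> simp [ha, hb, hc]

theorem E_eq_zero {s : Finset ι} (hs : 3 * (p - 1) < s.card) (c : ZMod p) : E v c s = 0 := by
  have h1 := (((D.const (ι := ι) (1 : ZMod p)).mul_ind c (fun _ => 1) (p - 1)).mul_ind 0
    (fun i => (v i).1) (p - 1)).mul_ind 0 (fun i => (v i).2) (p - 1)
  have h2 := h1 s ∅ (disjoint_empty_right _) (by omega)
  rw [E]
  refine Eq.trans (sum_congr rfl fun t _ => ?_) h2
  rw [ind_eq, empty_union]
  simp only [one_mul]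

theorem E_zero_eq_one {s : Finset ι} (hs : 3 * (p - 1) ≤ s.card) : E v 0 s = E v 1 s := by
  have h0 := sub_one_ne (p := p)
  have h1 := (((D.const (ι := ι) (1 : ZMod p)).mul_diff (fun _ => 1) (p - 1)).mul_ind 0
    (fun i => (v i).1) (p - 1)).mul_ind 0 (fun i => (v i).2) (p - 1)
  have h2 := h1 s ∅ (disjoint_empty_right _) (by omega)
  rw [← sub_eq_zero, E, E, ← sum_sub_distrib]
  refine Eq.trans (sum_congr rfl fun t _ => ?_) h2
  rw [ind_eq, ind_eq, empty_union]
  ring

omit [DecidableEq ι] in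
theorem N_eq_zero {k : ℕ} {s : Finset ι} (h : s.card < k) : N v k s = 0 := by
  rw [N, powersetCard_eq_empty.2 h, sum_empty]

omit [DecidableEq ι] in
theorem N_zero (s : Finset ι) : N v 0 s = 1 := by
  rw [N, powersetCard_zero, sum_singleton]
  simp

omit [DecidableEq ι] in
theorem E_eq_sum (c : ZMod p) (s : Finset ι) {m : ℕ} (hm : s.card < m) :
    E v c s = ∑ k ∈ range m, if c + (k : ZMod p) = 0 then (-1) ^ k * N v k s else 0 := by
  rw [E, sum_powerset]
  have h1 : ∑ k ∈ range (s.card + 1), (if c + (k : ZMod p) = 0 then (-1) ^ k * N v k s else 0) =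
      ∑ k ∈ range m, if c + (k : ZMod p) = 0 then (-1) ^ k * N v k s else 0 := by
    refine sum_subset (range_subset_range.2 (by omega)) fun k _ hk => ?_
    rw [mem_range] at hk
    rw [N_eq_zero v (by omega)]
    simp
  rw [← h1]
  refine sum_congr rfl fun k _ => ?_
  have h2 : ∀ t ∈ s.powersetCard k,
      ((-1 : ZMod p) ^ t.card * if c + (t.card : ZMod p) = 0 ∧ ∑ i ∈ t, v i = 0 then 1 else 0) =
      if c + (k : ZMod p) = 0 then ((-1 : ZMod p) ^ k * if ∑ i ∈ t, v i = 0 then 1 else 0)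
        else 0 := by
    intro t ht
    rw [(mem_powersetCard.1 ht).2]
    by_cases ha : c + (k : ZMod p) = 0 <;> simp [ha]
  rw [sum_congr rfl h2]
  split_ifs with ha
  · rw [N, mul_sum]
  · simp

theorem sum_range_four (h : ℕ → ZMod p) :
    ∑ k ∈ range (4 * p), (if (0 : ZMod p) + (k : ZMod p) = 0 then h k else 0) =
      h 0 + h p + h (2 * p) + h (3 * p) := by
  have hp0 := hp.out.pos
  rw [← sum_filter]
  have h1 : (range (4 * p)).filter (fun k : ℕ => (0 : ZMod p) + (k : ZMod p) = 0) =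
      (range 4).image (fun j : ℕ => j * p) := by
    ext k
    rw [mem_filter, mem_range, mem_image, zero_add, ZMod.natCast_eq_zero_iff]
    constructor
    · rintro ⟨h2, j, rfl⟩
      exact ⟨j, mem_range.2 (by nlinarith), mul_comm _ _⟩
    · rintro ⟨j, hj, rfl⟩
      exact ⟨by have := mem_range.1 hj; nlinarith, dvd_mul_left _ _⟩
  rw [h1, sum_image (fun a _ b _ hab => Nat.eq_of_mul_eq_mul_right hp0 hab)]
  simp [sum_range_succ]

theorem sum_range_four' (h : ℕ → ZMod p) :
    ∑ k ∈ range (4 * p), (if (1 : ZMod p) + (k : ZMod p) = 0 then h k else 0) =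
      h (p - 1) + h (2 * p - 1) + h (3 * p - 1) + h (4 * p - 1) := by
  have hp0 := hp.out.pos
  rw [← sum_filter]
  have h1 : (range (4 * p)).filter (fun k : ℕ => (1 : ZMod p) + (k : ZMod p) = 0) =
      (range 4).image (fun j : ℕ => (j + 1) * p - 1) := by
    ext k
    have e1 : (1 : ZMod p) + (k : ZMod p) = ((k + 1 : ℕ) : ZMod p) := by push_cast; ring
    rw [mem_filter, mem_range, mem_image, e1, ZMod.natCast_eq_zero_iff]
    constructor
    · rintro ⟨h2, j, hj⟩
      have hj0 : j ≠ 0 := by rintro rfl; omega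
      obtain ⟨i, rfl⟩ := Nat.exists_eq_succ_of_ne_zero hj0
      refine ⟨i, mem_range.2 ?_, ?_⟩
      · have h3 : p * (i + 1) ≤ 4 * p := by rw [← Nat.succ_eq_add_one, ← hj]; omega
        nlinarith
      · rw [Nat.succ_eq_add_one] at hj
        rw [mul_comm, ← hj]
        rfl
    · rintro ⟨j, hj, rfl⟩
      have h3 := mem_range.1 hj
      have h4 : 0 < (j + 1) * p := Nat.mul_pos (by omega) hp0
      have h5 : (j + 1) * p ≤ 4 * p := Nat.mul_le_mul_right p (by omega)
      refine ⟨by omega, ?_⟩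
      rw [Nat.sub_add_cancel h4]
      exact dvd_mul_left _ _
  rw [h1, sum_image (fun a _ b _ hab => by
    have h4 : 0 < (a + 1) * p := Nat.mul_pos (by omega) hp0
    have h5 : 0 < (b + 1) * p := Nat.mul_pos (by omega) hp0
    have h6 : (a + 1) * p = (b + 1) * p := by omega
    have := Nat.eq_of_mul_eq_mul_right hp0 h6
    omega)]
  simp [sum_range_succ]

variable (hodd : Odd p)
include hodd

theorem E_zero_eq {s : Finset ι} (hs : s.card < 4 * p) :
    E v 0 s = 1 - N v p s + N v (2 * p) s - N v (3 * p) s := by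
  rw [E_eq_sum v 0 s hs, sum_range_four, N_zero, hodd.neg_one_pow, (even_two_mul p).neg_one_pow,
    (Odd.mul (by decide : Odd 3) hodd).neg_one_pow]
  ring

theorem E_one_eq {s : Finset ι} (hs : s.card < 4 * p - 1) :
    E v 1 s = N v (p - 1) s - N v (2 * p - 1) s + N v (3 * p - 1) s := by
  have hp0 := hp.out.pos
  obtain ⟨a, ha⟩ := hodd
  rw [E_eq_sum v 1 s (m := 4 * p) (by omega), sum_range_four', N_eq_zero v hs]
  have e1 : (-1 : ZMod p) ^ (p - 1) = 1 := Even.neg_one_pow ⟨a, by omega⟩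
  have e2 : (-1 : ZMod p) ^ (2 * p - 1) = -1 := Odd.neg_one_pow ⟨2 * a, by omega⟩
  have e3 : (-1 : ZMod p) ^ (3 * p - 1) = 1 := Even.neg_one_pow ⟨3 * a + 1, by omega⟩
  rw [e1, e2, e3]
  ring

end

end Fermat.Agent.Cor.Kemnitz
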