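import Mathlib

/-!
# Kemnitz' conjecture: alternating sums over subsets

A function of the subsets of a set which is a polynomial of degree `< |s|` in linear forms has
alternating sum zero over the subsets of `s`.
-/

namespace Fermat.Agent.Cor.Kemnitz

open Finset

section

variable {R : Type*} [CommRing R] {ι : Type*} [DecidableEq ι]

/-- `φ` has degree at most `k`: the alternating sums over the subsets of a set with more than `k`
elements vanish -/
def D (k : ℕ) (φ : Finset ι → R) : Prop :=
  ∀ s u : Finset ι, Disjoint s u → k < s.card → ∑ t ∈ s.powerset, (-1) ^ t.card * φ (u ∪ t) = 0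

theorem D.mono {k l : ℕ} {φ : Finset ι → R} (h : D k φ) (hkl : k ≤ l) : D l φ :=
  fun s u hsu hs => h s u hsu (hkl.trans_lt hs)

theorem D.const (c : R) : D 0 (fun _ : Finset ι => c) := by
  intro s u _ hs
  rw [← sum_mul]
  have h1 : ∑ t ∈ s.powerset, (-1 : ℤ) ^ t.card = 0 :=
    Finset.sum_powerset_neg_one_pow_card_of_nonempty (card_pos.1 hs)
  have h2 : ∑ t ∈ s.powerset, (-1 : R) ^ t.card = 0 := by
    have := congrArg (Int.cast : ℤ → R) h1
    push_cast at this
    exact this
  rw [h2, zero_mul]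

theorem D.add {k : ℕ} {φ ψ : Finset ι → R} (h1 : D k φ) (h2 : D k ψ) : D k (fun t => φ t + ψ t) := by
  intro s u hsu hs
  simp only [mul_add, sum_add_distrib]
  rw [h1 s u hsu hs, h2 s u hsu hs, add_zero]

theorem D.smul {k : ℕ} {φ : Finset ι → R} (h : D k φ) (c : R) : D k (fun t => φ t * c) := by
  intro s u hsu hs
  simp only [← mul_assoc, ← sum_mul]
  rw [h s u hsu hs, zero_mul]

theorem D.sub {k : ℕ} {φ ψ : Finset ι → R} (h1 : D k φ) (h2 : D k ψ) :
    D k (fun t => φ t - ψ t) := by
  have h3 := h1.add (h2.smul (-1))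
  intro s u hsu hs
  have h4 := h3 s u hsu hs
  simp only at h4
  rw [← h4]
  refine sum_congr rfl fun t _ => ?_
  ring

theorem D.sum {k n : ℕ} {φ : ℕ → Finset ι → R} (h : ∀ j < n, D k (φ j)) :
    D k (fun t => ∑ j ∈ range n, φ j t) := by
  induction n with
  | zero =>
    intro s u _ _
    simp
  | succ n ih =>
    have h1 := (ih fun j hj => h j (by omega)).add (h n (by omega))
    intro s u hsu hs
    simp only [sum_range_succ]
    exact h1 s u hsu hs

/-- multiplication by an affine form -/
theorem D.mul_form {k : ℕ} {φ : Finset ι → R} (h : D k φ) (c : R) (w : ι → R) :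
    D (k + 1) (fun t => φ t * (c + ∑ i ∈ t, w i)) := by
  intro s u hsu hs
  have h1 : ∀ t ∈ s.powerset, (-1) ^ t.card * (φ (u ∪ t) * (c + ∑ i ∈ u ∪ t, w i)) =
      (-1) ^ t.card * φ (u ∪ t) * (c + ∑ i ∈ u, w i) +
        ∑ i ∈ s, w i * (if i ∈ t then (-1) ^ t.card * φ (u ∪ t) else 0) := by
    intro t ht
    have hts := mem_powerset.1 ht
    rw [sum_union (hsu.symm.mono_right hts)]
    have h2 : ∑ i ∈ s, w i * (if i ∈ t then (-1) ^ t.card * φ (u ∪ t) else 0) =
        (∑ i ∈ t, w i) * ((-1) ^ t.card * φ (u ∪ t)) := by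
      simp only [mul_ite, mul_zero]
      rw [← sum_filter, filter_mem_eq_inter, inter_eq_right.2 hts, sum_mul]
    rw [h2]
    ring
  rw [sum_congr rfl h1, sum_add_distrib, ← sum_mul, h s u hsu (by omega), zero_mul, zero_add,
    sum_comm]
  refine sum_eq_zero fun i hi => ?_
  rw [← mul_sum]
  have h2 : ∑ t ∈ s.powerset, (if i ∈ t then (-1 : R) ^ t.card * φ (u ∪ t) else 0) = 0 := by
    conv_lhs => rw [← insert_erase hi]
    rw [sum_powerset_insert (notMem_erase i s)]
    have h3 : ∑ t ∈ (s.erase i).powerset, (if i ∈ t then (-1 : R) ^ t.card * φ (u ∪ t) else 0) =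
        0 := sum_eq_zero fun t ht => if_neg fun hit =>
          notMem_erase i s (mem_powerset.1 ht hit)
    rw [h3, zero_add]
    have hdisj : Disjoint (s.erase i) (insert i u) := by
      rw [disjoint_insert_right]
      exact ⟨notMem_erase i s, hsu.mono_left (erase_subset i s)⟩
    have hcard : k < (s.erase i).card := by
      rw [card_erase_of_mem hi]; omega
    have h4 := h (s.erase i) (insert i u) hdisj hcard
    have h5 : ∀ t ∈ (s.erase i).powerset,
        (if i ∈ insert i t then (-1 : R) ^ (insert i t).card * φ (u ∪ insert i t) else 0) =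
        -((-1) ^ t.card * φ (insert i u ∪ t)) := by
      intro t ht
      have hit : i ∉ t := fun hit => notMem_erase i s (mem_powerset.1 ht hit)
      rw [if_pos (mem_insert_self i t), card_insert_of_notMem hit, pow_succ, union_insert,
        insert_union]
      ring
    rw [sum_congr rfl h5, sum_neg_distrib, h4, neg_zero]
  rw [h2, mul_zero]

theorem D.mul_pow {k : ℕ} {φ : Finset ι → R} (h : D k φ) (c : R) (w : ι → R) (m : ℕ) :
    D (k + m) (fun t => φ t * (c + ∑ i ∈ t, w i) ^ m) := by
  induction m with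
  | zero => simpa using h
  | succ m ih =>
    have h1 := ih.mul_form c w
    intro s u hsu hs
    have h2 := h1 s u hsu (by omega)
    simp only [pow_succ]
    simp only [mul_assoc] at h2 ⊢
    exact h2

/-- multiplication by the indicator function of `c + ∑ w = 0` -/
theorem D.mul_ind {k : ℕ} {φ : Finset ι → R} (h : D k φ) (c : R) (w : ι → R) (m : ℕ) :
    D (k + m) (fun t => φ t * (1 - (c + ∑ i ∈ t, w i) ^ m)) := by
  have h1 := (h.mono (Nat.le_add_right k m)).sub (h.mul_pow c w m)
  intro s u hsu hs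
  have h2 := h1 s u hsu hs
  simp only at h2
  rw [← h2]
  refine sum_congr rfl fun t _ => ?_
  ring

/-- multiplication by `(x + 1) ^ m - x ^ m` -/
theorem D.mul_diff {k : ℕ} {φ : Finset ι → R} (h : D k φ) (w : ι → R) (m : ℕ) :
    D (k + (m - 1)) (fun t => φ t * ((1 + ∑ i ∈ t, w i) ^ m - (0 + ∑ i ∈ t, w i) ^ m)) := by
  have h1 : D (k + (m - 1)) (fun t => ∑ j ∈ range m,
      φ t * (0 + ∑ i ∈ t, w i) ^ j * (m.choose j : R)) :=
    D.sum fun j hj => ((h.mul_pow 0 w j).mono (by omega)).smul _
  intro s u hsu hs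
  refine Eq.trans (sum_congr rfl fun t _ => ?_) (h1 s u hsu hs)
  congr 1
  simp only
  generalize (∑ i ∈ u ∪ t, w i) = x
  rw [add_comm (1 : R) x, zero_add, add_pow, sum_range_succ]
  simp only [one_pow, mul_one, Nat.choose_self, Nat.cast_one, add_sub_cancel_right, mul_sum,
    mul_assoc]

end

end Fermat.Agent.Cor.Kemnitz
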