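import Fermat.Agent.Corollaries.Kemnitz.OlsonTwo

/-!
# Gao's theorem for finite abelian `p`-groups

`G = ∏ ℤ/p ^ e_k`: the least `N` such that among `N` elements of `G` there are always `|G|` elements
with sum `0` is `|G| + ∑ (p ^ e_k - 1)`, i.e. `|G| + D(G) - 1` (W. Gao 1996).
-/

set_option autoImplicit false

namespace Fermat.Agent.Cor.Kemnitz

open Finset

theorem one_add_sum_le_prod {κ : Type*} (x : κ → ℕ) (hx : ∀ k, 0 < x k) (s : Finset κ) :
    1 + ∑ k ∈ s, (x k - 1) ≤ ∏ k ∈ s, x k := by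
  classical
  induction s using Finset.induction_on with
  | empty => simp
  | insert a s ha ih =>
    rw [sum_insert ha, prod_insert ha]
    obtain ⟨y, hy⟩ : ∃ y, x a = y + 1 := ⟨x a - 1, by have := hx a; omega⟩
    rw [hy]
    have h1 : (y + 1) * (1 + ∑ k ∈ s, (x k - 1)) ≤ (y + 1) * ∏ k ∈ s, x k :=
      Nat.mul_le_mul_left _ ih
    have h2 : (y + 1) * (1 + ∑ k ∈ s, (x k - 1)) =
        1 + y + ∑ k ∈ s, (x k - 1) + y * ∑ k ∈ s, (x k - 1) := by ring
    have h3 := Nat.zero_le (y * ∑ k ∈ s, (x k - 1))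
    omega

variable {p : ℕ} [hp : Fact p.Prime] {κ : Type*} [Fintype κ]

/-- **Gao's theorem for `p`-groups, the upper bound.** -/
theorem exists_zero_sum_card (e : κ → ℕ) {ι : Type*} (g : ι → (k : κ) → ZMod (p ^ e k))
    (s : Finset ι) (hs : ∏ k, p ^ e k + ∑ k, (p ^ e k - 1) ≤ s.card) :
    ∃ t ⊆ s, t.card = ∏ k, p ^ e k ∧ ∑ i ∈ t, g i = 0 := by
  classical
  have hpos : ∀ k, 0 < p ^ e k := fun k => pow_pos hp.out.pos _
  have hG : ∏ k, p ^ e k = p ^ ∑ k, e k := prod_pow_eq_pow_sum _ _ _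
  have hG0 : 0 < p ^ ∑ k, e k := pow_pos hp.out.pos _
  obtain ⟨s', hs', hc⟩ := exists_subset_card_eq hs
  choose a ha using fun i k => ZMod.intCast_surjective (g i k)
  obtain ⟨t, ht, h1, h2⟩ := exists_dvd_of_card (p := p) (κ := Option κ)
    (fun o => o.elim (∑ k, e k) e) (fun i o => o.elim 1 (a i)) s' (by
      rw [Fintype.sum_option, hc, hG]
      simp only [Option.elim_none, Option.elim_some]
      omega)
  refine ⟨t, ht.trans hs', ?_, ?_⟩
  · have h3 := h2 none
    simp only [Option.elim_none] at h3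
    rw [sum_const, nsmul_eq_mul, mul_one, Int.natCast_dvd_natCast] at h3
    obtain ⟨c, hc'⟩ := h3
    have h4 := card_le_card ht
    have h5 := card_pos.2 h1
    have h6 := one_add_sum_le_prod (fun k => p ^ e k) hpos univ
    have h7 : c < 2 := by
      by_contra hcon
      push Not at hcon
      have := Nat.mul_le_mul_left (p ^ ∑ k, e k) hcon
      omega
    have h8 : c ≠ 0 := by
      rintro rfl
      omega
    have h9 : c = 1 := by omega
    rw [hG, hc', h9, mul_one]
  · funext k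
    have h3 := h2 (some k)
    simp only [Option.elim_some] at h3
    rw [Finset.sum_apply, Pi.zero_apply, ← (ZMod.intCast_zmod_eq_zero_iff_dvd _ _).2 h3,
      Int.cast_sum]
    exact sum_congr rfl fun i _ => (ha i k).symm

/-- **Gao's theorem for `p`-groups** (1996): the least `N` such that every sequence of `N` elements
of the `p`-group `G = ∏ ℤ/p ^ e_k` has a subsequence of length `|G|` with sum `0` is
`|G| + D(G) - 1 = |G| + ∑ (p ^ e_k - 1)`. -/
theorem gao (e : κ → ℕ) :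
    IsLeast {N : ℕ | ∀ g : Fin N → (k : κ) → ZMod (p ^ e k), ∃ t : Finset (Fin N),
      t.card = ∏ k, p ^ e k ∧ ∑ i ∈ t, g i = 0} (∏ k, p ^ e k + ∑ k, (p ^ e k - 1)) := by
  classical
  have hG0 : 0 < ∏ k, p ^ e k := prod_pos fun k _ => pow_pos hp.out.pos _
  constructor
  · intro g
    obtain ⟨t, -, h1, h2⟩ := exists_zero_sum_card e g univ (by
      rw [card_univ, Fintype.card_fin])
    exact ⟨t, h1, h2⟩
  · intro N hN
    by_contra hcon
    obtain ⟨N₀, hN₀⟩ : ∃ N₀, N₀ = ∑ k, (p ^ e k - 1) := ⟨_, rfl⟩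
    obtain ⟨g₀, hg₀⟩ := exists_no_zero_sum (p := p) e (N := N₀) hN₀.le
    set F : ℕ → (k : κ) → ZMod (p ^ e k) := fun n => if h : n < N₀ then g₀ ⟨n, h⟩ else 0 with hF
    obtain ⟨t, h1, h2⟩ := hN fun i => F i.1
    set T := t.map Fin.valEmbedding with hT
    have h3 : ∑ n ∈ T, F n = 0 := by
      rw [hT, sum_map]
      exact h2
    have h4 : ∑ j ∈ (univ : Finset (Fin N₀)).filter (fun j : Fin N₀ => (j : ℕ) ∈ T), g₀ j = 0 := by
      rw [← h3, sum_filter]
      have h5 : ∀ j : Fin N₀, (if (j : ℕ) ∈ T then g₀ j else 0) =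
          (fun n : ℕ => if n ∈ T then F n else 0) j := by
        intro j
        simp only [hF, dif_pos j.2]
      rw [sum_congr rfl fun j _ => h5 j, Fin.sum_univ_eq_sum_range
        (fun n : ℕ => if n ∈ T then F n else 0), ← sum_filter]
      refine sum_subset_zero_on_sdiff (fun n hn => (mem_filter.1 hn).2) (fun n hn => ?_)
        fun _ _ => rfl
      have h6 := mem_sdiff.1 hn
      have h7 : ¬ n < N₀ := fun h => h6.2 (mem_filter.2 ⟨mem_range.2 h, h6.1⟩)
      simp only [hF, dif_neg h7]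
    have h5 : ¬ ((univ : Finset (Fin N₀)).filter (fun j : Fin N₀ => (j : ℕ) ∈ T)).Nonempty :=
      fun h => hg₀ _ h h4
    have h6 : T ⊆ Ico N₀ N := by
      intro n hn
      obtain ⟨i, -, rfl⟩ := mem_map.1 hn
      rw [Fin.valEmbedding_apply] at hn ⊢
      refine mem_Ico.2 ⟨?_, i.2⟩
      by_contra h7
      push Not at h7
      exact h5 ⟨⟨i.1, h7⟩, mem_filter.2 ⟨mem_univ _, hn⟩⟩
    have h7 := card_le_card h6
    rw [Nat.card_Ico, hT, card_map, h1] at h7
    omega

end Fermat.Agent.Cor.Kemnitz
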