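import Mathlib

/-!
# The theorem of Erdős, Ginzburg and Ziv for all finite abelian groups

Among `2 |G| - 1` elements of a finite abelian group `G` there are `|G|` elements with sum `0`.
-/

set_option autoImplicit false

namespace Fermat.Agent.Cor.Kemnitz

open Finset

universe u v

namespace Group

/-- many disjoint subsets with the property `Pr` -/
theorem extract {ι : Type*} [DecidableEq ι] {m : ℕ} (hm : 0 < m) (Pr : Finset ι → Prop)
    (s : Finset ι)
    (hP : ∀ s' : Finset ι, s' ⊆ s → 2 * m - 1 ≤ s'.card → ∃ t ⊆ s', t.card = m ∧ Pr t) (k : ℕ)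
    (hs : 2 * (k * m) - 1 ≤ s.card) (j : ℕ) (hj : j ≤ 2 * k - 1) :
    ∃ T : Finset (Finset ι), T.card = j ∧ (∀ x ∈ T, ∀ y ∈ T, x ≠ y → Disjoint x y) ∧
      ∀ t ∈ T, t ⊆ s ∧ t.card = m ∧ Pr t := by
  induction j with
  | zero => exact ⟨∅, card_empty, by simp, by simp⟩
  | succ j ih =>
    obtain ⟨T, hT1, hT2, hT3⟩ := ih (by omega)
    set U := T.biUnion (fun t => t) with hU
    have hUs : U ⊆ s := biUnion_subset.2 fun t ht => (hT3 t ht).1
    have hUc : U.card = j * m := by
      rw [hU, card_biUnion hT2, sum_congr rfl fun t ht => (hT3 t ht).2.1, sum_const, smul_eq_mul,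
        hT1]
    have h1 := card_sdiff_add_card_eq_card hUs
    have h2 : j * m + 2 * m ≤ 2 * (k * m) := by
      have h3 : (j + 2) * m ≤ (2 * k) * m := Nat.mul_le_mul_right m (by omega)
      nlinarith
    obtain ⟨t, ht, ht1, ht2⟩ := hP (s \ U) sdiff_subset (by omega)
    have hd : ∀ x ∈ T, Disjoint t x := fun x hx =>
      Disjoint.mono ht (subset_biUnion_of_mem (fun t => t) hx) sdiff_disjoint
    have htT : t ∉ T := fun h => by
      have h4 := hd t h
      rw [disjoint_self] at h4
      have h5 : t.card = 0 := card_eq_zero.2 h4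
      omega
    refine ⟨insert t T, by rw [card_insert_of_notMem htT, hT1], ?_, ?_⟩
    · intro x hx y hy hxy
      rcases mem_insert.1 hx with rfl | hx' <;> rcases mem_insert.1 hy with rfl | hy'
      · exact absurd rfl hxy
      · exact hd y hy'
      · exact (hd x hx').symm
      · exact hT2 x hx' y hy' hxy
    · intro x hx
      rcases mem_insert.1 hx with rfl | hx'
      · exact ⟨ht.trans sdiff_subset, ht1, ht2⟩
      · exact hT3 x hx'

theorem main (n : ℕ) : ∀ (G : Type u) [AddCommGroup G] [Finite G], Nat.card G = n →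
    ∀ (ι : Type v) (g : ι → G) (s : Finset ι), 2 * n - 1 ≤ s.card →
      ∃ t ⊆ s, t.card = n ∧ ∑ i ∈ t, g i = 0 := by
  induction n using Nat.strong_induction_on with
  | _ n ih =>
    intro G _ _ hG ι g s hs
    classical
    have hn : 0 < n := hG ▸ Nat.card_pos
    rcases eq_or_ne n 1 with rfl | h1
    · obtain ⟨i, hi⟩ : s.Nonempty := card_pos.1 (by omega)
      have : Subsingleton G := (Nat.card_eq_one_iff_unique.1 hG).1
      exact ⟨{i}, singleton_subset_iff.2 hi, card_singleton i, Subsingleton.elim _ _⟩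
    · obtain ⟨p, hp, hpn⟩ := Nat.exists_prime_and_dvd h1
      have hF : Fact p.Prime := ⟨hp⟩
      obtain ⟨x, hx⟩ := exists_prime_addOrderOf_dvd_card' (G := G) p (hG ▸ hpn)
      set H := AddSubgroup.zmultiples x with hH
      have hHc : Nat.card H = p := by rw [hH, Nat.card_zmultiples, hx]
      have hQ : Nat.card (G ⧸ H) * p = n := by
        rw [← hG, ← hHc]
        exact (AddSubgroup.card_eq_card_quotient_mul_card_addSubgroup H).symm
      set m := Nat.card (G ⧸ H) with hm
      have hm0 : 0 < m := Nat.card_pos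
      have hmn : m < n := by
        have := hp.two_le
        nlinarith
      have hP : ∀ s' : Finset ι, s' ⊆ s → 2 * m - 1 ≤ s'.card →
          ∃ t ⊆ s', t.card = m ∧ ∑ i ∈ t, g i ∈ H := by
        intro s' _ hs'
        obtain ⟨t, ht, htc, hts⟩ := ih m hmn (G ⧸ H) hm.symm ι (fun i => (g i : G ⧸ H)) s' hs'
        refine ⟨t, ht, htc, ?_⟩
        rw [← QuotientAddGroup.eq_zero_iff, ← hts]
        exact map_sum (QuotientAddGroup.mk' H) _ _
      obtain ⟨T, hT1, hT2, hT3⟩ := extract hm0 (fun t => ∑ i ∈ t, g i ∈ H) s hP p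
        (by rw [mul_comm p, hQ]; exact hs) (2 * p - 1) le_rfl
      have hc : ∀ t : Finset ι, ∃ c : ℤ, t ∈ T → c • x = ∑ i ∈ t, g i := by
        intro t
        by_cases ht : t ∈ T
        · obtain ⟨c, hc⟩ := AddSubgroup.mem_zmultiples_iff.1 (hT3 t ht).2.2
          exact ⟨c, fun _ => hc⟩
        · exact ⟨0, fun h => absurd h ht⟩
      choose c hc using hc
      obtain ⟨T', hT', hT'c, hT's⟩ := Int.erdos_ginzburg_ziv (n := p) (s := T) c (by rw [hT1])
      have hdis : Set.PairwiseDisjoint (T' : Set (Finset ι)) fun t => t := fun x hx y hy hxy =>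
        hT2 x (hT' hx) y (hT' hy) hxy
      refine ⟨T'.biUnion fun t => t, biUnion_subset.2 fun t ht => (hT3 t (hT' ht)).1, ?_, ?_⟩
      · rw [card_biUnion hdis, sum_congr rfl fun t ht => (hT3 t (hT' ht)).2.1, sum_const,
          smul_eq_mul, hT'c, mul_comm, hQ]
      · rw [sum_biUnion hdis, sum_congr rfl fun t ht => (hc t (hT' ht)).symm, ← sum_smul]
        rw [← hx] at hT's
        exact addOrderOf_dvd_iff_zsmul_eq_zero.1 hT's

end Group

/-- **The theorem of Erdős, Ginzburg and Ziv for finite abelian groups**: among `2 |G| - 1`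
elements of `G` there are `|G|` elements with sum `0`. -/
theorem egz_group {G : Type*} [AddCommGroup G] [Finite G] {ι : Type*} (g : ι → G) (s : Finset ι)
    (hs : 2 * Nat.card G - 1 ≤ s.card) :
    ∃ t ⊆ s, t.card = Nat.card G ∧ ∑ i ∈ t, g i = 0 :=
  Group.main _ G rfl ι g s hs

/-- The Davenport constant is at most the order of the group. -/
theorem exists_zero_sum_of_card_group {G : Type*} [AddCommGroup G] [Finite G] {ι : Type*}
    (g : ι → G) (s : Finset ι) (hs : Nat.card G ≤ s.card) :
    ∃ t ⊆ s, t.Nonempty ∧ ∑ i ∈ t, g i = 0 := by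
  classical
  have hG : 0 < Nat.card G := Nat.card_pos
  obtain ⟨t, ht, htc, hts⟩ := egz_group (Sum.elim g fun _ => 0 : ι ⊕ Fin (Nat.card G - 1) → G)
    (s.disjSum (univ : Finset (Fin (Nat.card G - 1)))) (by
      rw [card_disjSum, card_univ, Fintype.card_fin]
      omega)
  have h1 := card_toLeft_add_card_toRight (u := t)
  have h2 : t.toRight.card ≤ Nat.card G - 1 := by
    have := card_le_univ t.toRight
    rwa [Fintype.card_fin] at this
  refine ⟨t.toLeft, fun i hi => inl_mem_disjSum.1 (ht (mem_toLeft.1 hi)), card_pos.1 (by omega), ?_⟩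
  rw [← hts]
  conv_rhs => rw [← toLeft_disjSum_toRight (u := t)]
  rw [sum_disjSum]
  simp

end Fermat.Agent.Cor.Kemnitz
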