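import Fermat.Agent.Corollaries.Kemnitz.Prime

/-!
# Kemnitz' conjecture (Reiher 2007)

Among `4 n - 3` points of `ℤ ^ 2` there are `n` points whose centroid is in `ℤ ^ 2`.
-/

namespace Fermat.Agent.Cor.Kemnitz

open Finset

universe u

/-- the statement for `n` -/
def P (n : ℕ) : Prop := ∀ (ι : Type u) (v : ι → ℤ × ℤ) (X : Finset ι), 4 * n - 3 ≤ X.card →
  ∃ t ⊆ X, t.card = n ∧ (n : ℤ) ∣ ∑ i ∈ t, (v i).1 ∧ (n : ℤ) ∣ ∑ i ∈ t, (v i).2

theorem P_zero : P.{u} 0 := fun _ _ _ _ => ⟨∅, empty_subset _, card_empty, by simp, by simp⟩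

theorem P_one : P.{u} 1 := by
  intro ι v X hX
  obtain ⟨i, hi⟩ : X.Nonempty := card_pos.1 (by omega)
  exact ⟨{i}, singleton_subset_iff.2 hi, card_singleton i, by simp, by simp⟩

theorem P_prime {p : ℕ} (hp : p.Prime) : P.{u} p := by
  intro ι v X hX
  have : Fact p.Prime := ⟨hp⟩
  obtain ⟨t, ht, h1, h2⟩ :=
    exists_zero_sum (p := p) (fun i => (((v i).1 : ZMod p), ((v i).2 : ZMod p))) X hX
  refine ⟨t, ht, h1, ?_, ?_⟩
  · rw [← ZMod.intCast_zmod_eq_zero_iff_dvd]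
    have h3 := congrArg Prod.fst h2
    rw [Prod.fst_sum] at h3
    push_cast
    exact h3
  · rw [← ZMod.intCast_zmod_eq_zero_iff_dvd]
    have h3 := congrArg Prod.snd h2
    rw [Prod.snd_sum] at h3
    push_cast
    exact h3

theorem card_arith {m n k c : ℕ} (h1 : k + 1 ≤ 4 * n - 3) (h2 : 4 * (m * n) - 3 ≤ c) :
    4 * m - 3 ≤ c - k * m := by
  have h3 : (k + 4) * m ≤ 4 * n * m := Nat.mul_le_mul_right m (by omega)
  have h4 : 4 * n * m = 4 * (m * n) := by ring
  rw [add_mul] at h3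
  omega

theorem extract {m n : ℕ} (hm : 0 < m) (hP : P.{u} m) {ι : Type u} [DecidableEq ι]
    (v : ι → ℤ × ℤ) (X : Finset ι) (hX : 4 * (m * n) - 3 ≤ X.card) (k : ℕ) (hk : k ≤ 4 * n - 3) :
    ∃ T : Finset (Finset ι), T.card = k ∧ (∀ a ∈ T, ∀ b ∈ T, a ≠ b → Disjoint a b) ∧
      ∀ t ∈ T, t ⊆ X ∧ t.card = m ∧ (m : ℤ) ∣ ∑ i ∈ t, (v i).1 ∧ (m : ℤ) ∣ ∑ i ∈ t, (v i).2 := by
  induction k with
  | zero => exact ⟨∅, card_empty, by simp, by simp⟩
  | succ k ih =>
    obtain ⟨T, hT1, hT2, hT3⟩ := ih (by omega)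
    set U := T.biUnion (fun t => t) with hU
    have hUX : U ⊆ X := biUnion_subset.2 fun t ht => (hT3 t ht).1
    have hUc : U.card = k * m := by
      rw [hU, card_biUnion (fun a ha b hb hab => hT2 a ha b hb hab)]
      rw [sum_congr rfl fun t ht => (hT3 t ht).2.1, sum_const, hT1, smul_eq_mul]
    have hc : 4 * m - 3 ≤ (X \ U).card := by
      rw [card_sdiff_of_subset hUX, hUc]
      exact card_arith hk hX
    obtain ⟨t, ht, h1, h2⟩ := hP ι v (X \ U) hc
    have hdisj : ∀ a ∈ T, Disjoint a t := by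
      intro a ha
      have h3 : a ⊆ U := subset_biUnion_of_mem (fun t => t) ha
      exact (subset_sdiff.1 ht).2.symm.mono_left h3
    have htT : t ∉ T := by
      intro h3
      have h4 := hdisj t h3
      rw [disjoint_self_iff_empty] at h4
      rw [h4, card_empty] at h1
      omega
    refine ⟨insert t T, by rw [card_insert_of_notMem htT, hT1], ?_, ?_⟩
    · intro a ha b hb hab
      rcases mem_insert.1 ha with rfl | ha' <;> rcases mem_insert.1 hb with rfl | hb'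
      · exact absurd rfl hab
      · exact (hdisj b hb').symm
      · exact hdisj a ha'
      · exact hT2 a ha' b hb' hab
    · intro a ha
      rcases mem_insert.1 ha with rfl | ha'
      · exact ⟨ht.trans sdiff_subset, h1, h2⟩
      · exact hT3 a ha'

theorem P_mul {m n : ℕ} (hm : 0 < m) (hPm : P.{u} m) (hPn : P.{u} n) : P.{u} (m * n) := by
  classical
  intro ι v X hX
  obtain ⟨T, hT1, hT2, hT3⟩ := extract hm hPm v X hX (4 * n - 3) le_rfl
  obtain ⟨S, hS, hS1, hS2, hS3⟩ := hPn (Finset ι)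
    (fun t => ((∑ i ∈ t, (v i).1) / m, (∑ i ∈ t, (v i).2) / m)) T hT1.ge
  have hdisj : ∀ a ∈ S, ∀ b ∈ S, a ≠ b → Disjoint a b :=
    fun a ha b hb => hT2 a (hS ha) b (hS hb)
  refine ⟨S.biUnion (fun t => t), biUnion_subset.2 fun t ht => (hT3 t (hS ht)).1, ?_, ?_, ?_⟩
  · rw [card_biUnion (fun a ha b hb hab => hdisj a ha b hb hab),
      sum_congr rfl fun t ht => (hT3 t (hS ht)).2.1, sum_const, hS1, smul_eq_mul, mul_comm]
  · rw [sum_biUnion fun a ha b hb hab => hdisj a ha b hb hab]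
    obtain ⟨c, hc⟩ := hS2
    refine ⟨c, ?_⟩
    push_cast
    rw [mul_assoc, ← hc, mul_sum]
    refine sum_congr rfl fun t ht => ?_
    exact (Int.mul_ediv_cancel' (hT3 t (hS ht)).2.2.1).symm
  · rw [sum_biUnion fun a ha b hb hab => hdisj a ha b hb hab]
    obtain ⟨c, hc⟩ := hS3
    refine ⟨c, ?_⟩
    push_cast
    rw [mul_assoc, ← hc, mul_sum]
    refine sum_congr rfl fun t ht => ?_
    exact (Int.mul_ediv_cancel' (hT3 t (hS ht)).2.2.2).symm

/-- **Kemnitz' conjecture** (C. Reiher 2007): among `4 n - 3` points of `ℤ ^ 2` (not necessarily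
different) there are `n` points whose sum is divisible by `n`. -/
theorem kemnitz (n : ℕ) {ι : Type*} (v : ι → ℤ × ℤ) (X : Finset ι) (hX : 4 * n - 3 ≤ X.card) :
    ∃ t ⊆ X, t.card = n ∧ (n : ℤ) ∣ ∑ i ∈ t, (v i).1 ∧ (n : ℤ) ∣ ∑ i ∈ t, (v i).2 := by
  have h : ∀ k : ℕ, P k := fun k =>
    Nat.recOnMul (motive := fun k => P k) P_zero P_one (fun p hp => P_prime hp)
      (fun a b ha hb => by
        rcases Nat.eq_zero_or_pos a with rfl | ha0
        · rw [zero_mul]; exact P_zero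
        · exact P_mul ha0 ha hb) k
  exact h n ι v X hX

end Fermat.Agent.Cor.Kemnitz
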