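import Mathlib

/-!
# The Davenport constant of a finite abelian `p`-group (Olson 1969)

Among `1 + ∑ (p ^ e_k - 1)` elements of `∏ ℤ/p ^ e_k` there are some (at least one) with sum `0`;
for `∑ (p ^ e_k - 1)` elements this is false.
-/

set_option autoImplicit false

namespace Fermat.Agent.Cor.Kemnitz

namespace Olson

open Finset

section ring

variable {R : Type*} [CommRing R] {κ : Type*} [Fintype κ]

/-- the monoid of the elements `≡ 1` modulo an ideal -/
def oneMod (J : Ideal R) : Submonoid R where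
  carrier := {x | 1 - x ∈ J}
  one_mem' := by simp
  mul_mem' {a b} ha hb := by
    have h : 1 - a * b = (1 - a) + a * (1 - b) := by ring
    show 1 - a * b ∈ J
    rw [h]
    exact J.add_mem ha (J.mul_mem_left _ hb)

theorem mem_oneMod {J : Ideal R} {x : R} : x ∈ oneMod J ↔ 1 - x ∈ J := Iff.rfl

/-- the product of many elements of the ideal of the `y k`, `y k ^ q k = 0`, is zero -/
theorem prod_eq_zero_of_mem (y : κ → R) (q : κ → ℕ) (hy : ∀ k, y k ^ q k = 0) {ι : Type*}
    [DecidableEq ι] (x : ι → R) (hx : ∀ i, x i ∈ Ideal.span (Set.range y)) (X : Finset ι)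
    (hX : ∑ k, (q k - 1) < X.card) : ∏ i ∈ X, x i = 0 := by
  classical
  have h1 : ∀ i, ∃ c : κ → R, ∑ k, c k * y k = x i := fun i =>
    (Ideal.mem_span_range_iff_exists_fun).1 (hx i)
  choose c hc using h1
  have h2 : ∏ i ∈ X, x i = ∏ i ∈ X, ∑ k ∈ (univ : Finset κ), c i k * y k :=
    prod_congr rfl fun i _ => (hc i).symm
  rw [h2, prod_sum]
  refine sum_eq_zero fun f _ => ?_
  rw [prod_mul_distrib]
  have h3 : ∃ k, q k - 1 < (X.attach.filter fun i => f i.1 i.2 = k).card := by
    by_contra hcon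
    push Not at hcon
    have h4 : X.attach.card = ∑ k, (X.attach.filter fun i => f i.1 i.2 = k).card :=
      card_eq_sum_card_fiberwise fun _ _ => mem_univ _
    rw [card_attach] at h4
    have h5 := sum_le_sum fun k (_ : k ∈ (univ : Finset κ)) => hcon k
    omega
  obtain ⟨k, hk⟩ := h3
  have h6 : y k ^ (X.attach.filter fun i => f i.1 i.2 = k).card ∣
      ∏ i ∈ X.attach, y (f i.1 i.2) := by
    have h7 : ∏ i ∈ X.attach.filter (fun i => f i.1 i.2 = k), y (f i.1 i.2) =
        y k ^ (X.attach.filter fun i => f i.1 i.2 = k).card := by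
      rw [← prod_const]
      exact prod_congr rfl fun i hi => by rw [(mem_filter.1 hi).2]
    rw [← h7]
    exact prod_dvd_prod_of_subset _ _ _ (filter_subset _ _)
  have h8 : y k ^ (X.attach.filter fun i => f i.1 i.2 = k).card = 0 :=
    pow_eq_zero_of_le (by omega) (hy k)
  rw [h8, zero_dvd_iff] at h6
  rw [h6, mul_zero]

end ring

set_option linter.unusedSectionVars false

variable {p : ℕ} [hp : Fact p.Prime] {κ : Type*} [Fintype κ] [DecidableEq κ]

/-- the group -/
abbrev Gp (p : ℕ) {κ : Type*} (e : κ → ℕ) : Type _ := (k : κ) → ZMod (p ^ e k)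

/-- the group algebra -/
abbrev GA (p : ℕ) {κ : Type*} (e : κ → ℕ) : Type _ := AddMonoidAlgebra (ZMod p) (Gp p e)

variable {e : κ → ℕ}

/-- the group element in the group algebra -/
noncomputable def X (p : ℕ) {κ : Type*} (e : κ → ℕ) (g : Gp p e) : GA p e :=
  AddMonoidAlgebra.single g 1

theorem X_zero : X p e 0 = 1 := rfl

theorem X_add (g h : Gp p e) : X p e (g + h) = X p e g * X p e h := by
  rw [X, X, X, AddMonoidAlgebra.single_mul_single, one_mul]

theorem X_nsmul (n : ℕ) (g : Gp p e) : X p e (n • g) = X p e g ^ n := by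
  induction n with
  | zero => rw [zero_smul, pow_zero, X_zero]
  | succ n ih => rw [succ_nsmul, X_add, ih, pow_succ]

theorem X_sum {ι : Type*} (s : Finset ι) (g : ι → Gp p e) :
    X p e (∑ i ∈ s, g i) = ∏ i ∈ s, X p e (g i) := by
  classical
  induction s using Finset.induction_on with
  | empty => rw [sum_empty, prod_empty, X_zero]
  | insert a s ha ih => rw [sum_insert ha, prod_insert ha, X_add, ih]

/-- the generators of the augmentation ideal -/
noncomputable def Y (p : ℕ) {κ : Type*} [DecidableEq κ] (e : κ → ℕ) (k : κ) : GA p e :=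
  1 - X p e (Pi.single k 1)

theorem Y_pow (k : κ) : Y p e k ^ (p ^ e k) = 0 := by
  have : CharP (GA p e) p :=
    charP_of_injective_algebraMap (algebraMap (ZMod p) (GA p e)).injective p
  rw [Y, sub_pow_char_pow, one_pow, ← X_nsmul]
  have h : (p ^ e k) • (Pi.single k 1 : Gp p e) = 0 := by
    rw [← Pi.single_smul, nsmul_eq_mul, ZMod.natCast_self, zero_mul, Pi.single_zero]
  rw [h, X_zero, sub_self]

theorem mem_span (g : Gp p e) : 1 - X p e g ∈ Ideal.span (Set.range (Y p e)) := by
  have hne : ∀ k, NeZero (p ^ e k) := fun k => ⟨(pow_pos hp.out.pos _).ne'⟩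
  have h1 : g = ∑ k, (g k).val • (Pi.single k 1 : Gp p e) := by
    conv_lhs => rw [← univ_sum_single g]
    refine sum_congr rfl fun k _ => ?_
    rw [← Pi.single_smul, nsmul_eq_mul, ZMod.natCast_zmod_val, mul_one]
  rw [← mem_oneMod, h1, X_sum]
  refine Submonoid.prod_mem _ fun k _ => ?_
  rw [X_nsmul]
  have h2 : Y p e k ∈ Ideal.span (Set.range (Y p e)) :=
    Ideal.subset_span (Set.mem_range_self k)
  have h3 : X p e (Pi.single k 1) ∈ oneMod (Ideal.span (Set.range (Y p e))) :=
    mem_oneMod.2 h2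
  exact pow_mem h3 _

theorem coeff_eq_zero (n : ℕ) {h : Gp p e} (hh : h ≠ 0) :
    ((-1) ^ n * X p e h : GA p e).coeff 0 = 0 := by
  rcases neg_one_pow_eq_or (GA p e) n with h1 | h1 <;> rw [h1]
  · rw [one_mul, X, AddMonoidAlgebra.coeff_single, Finsupp.single_apply, if_neg hh]
  · rw [neg_one_mul, AddMonoidAlgebra.coeff_neg, Finsupp.neg_apply, X,
      AddMonoidAlgebra.coeff_single, Finsupp.single_apply, if_neg hh, neg_zero]

end Olson

open Finset Olson

/-- **Olson's theorem, the upper bound.** -/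
theorem exists_zero_sum_of_card {p : ℕ} [hp : Fact p.Prime] {κ : Type*} [Fintype κ] (e : κ → ℕ)
    {ι : Type*} (g : ι → (k : κ) → ZMod (p ^ e k)) (s : Finset ι)
    (hs : ∑ k, (p ^ e k - 1) < s.card) : ∃ t ⊆ s, t.Nonempty ∧ ∑ i ∈ t, g i = 0 := by
  classical
  by_contra hcon
  push Not at hcon
  have h1 := prod_eq_zero_of_mem (Y p e) (fun k => p ^ e k) Y_pow (fun i => 1 - X p e (g i))
    (fun i => mem_span (g i)) s hs
  have h2 : ∏ i ∈ s, (1 - X p e (g i)) =
      ∑ t ∈ s.powerset, (-1) ^ t.card * X p e (∑ i ∈ t, g i) := by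
    have h3 : ∀ i, 1 - X p e (g i) = -X p e (g i) + 1 := fun i => by ring
    simp only [h3]
    rw [prod_add]
    refine sum_congr rfl fun t _ => ?_
    rw [prod_const_one, mul_one, prod_neg, X_sum]
  rw [h2] at h1
  have h4 := congrArg (fun z : GA p e => z.coeff 0) h1
  simp only [AddMonoidAlgebra.coeff_sum, Finsupp.finsetSum_apply, AddMonoidAlgebra.coeff_zero,
    Finsupp.coe_zero, Pi.zero_apply] at h4
  rw [sum_eq_single_of_mem ∅ (empty_mem_powerset s) fun t ht ht0 =>
    coeff_eq_zero _ (hcon t (mem_powerset.1 ht) (nonempty_iff_ne_empty.2 ht0))] at h4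
  rw [card_empty, pow_zero, one_mul, sum_empty, X, AddMonoidAlgebra.coeff_single,
    Finsupp.single_eq_same] at h4
  exact one_ne_zero h4

/-- **Olson's theorem, the lower bound**: the number is sharp. -/
theorem exists_no_zero_sum {p : ℕ} [hp : Fact p.Prime] {κ : Type*} [Fintype κ] [DecidableEq κ]
    (e : κ → ℕ) {N : ℕ} (hN : N ≤ ∑ k, (p ^ e k - 1)) :
    ∃ g : Fin N → (k : κ) → ZMod (p ^ e k), ∀ t : Finset (Fin N), t.Nonempty →
      ∑ i ∈ t, g i ≠ 0 := by
  classical
  have hc : Fintype.card (Fin N) ≤ Fintype.card ((k : κ) × Fin (p ^ e k - 1)) := by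
    rw [Fintype.card_fin, Fintype.card_sigma]
    simpa using hN
  obtain ⟨f⟩ := Function.Embedding.nonempty_of_card_le hc
  refine ⟨fun i => Pi.single (f i).1 1, fun t ht h => ?_⟩
  obtain ⟨i, hi⟩ := ht
  have h1 := congrFun h (f i).1
  rw [Finset.sum_apply, Pi.zero_apply] at h1
  have h2 : ∑ j ∈ t, (Pi.single (f j).1 1 : (k : κ) → ZMod (p ^ e k)) (f i).1 =
      ((t.filter fun j => (f j).1 = (f i).1).card : ZMod (p ^ e (f i).1)) := by
    rw [card_eq_sum_ones, Nat.cast_sum, sum_filter]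
    refine sum_congr rfl fun j _ => ?_
    split_ifs with hj
    · rw [← hj, Pi.single_eq_same, Nat.cast_one]
    · exact Pi.single_eq_of_ne (fun h => hj h.symm) _
  rw [h2, ZMod.natCast_eq_zero_iff] at h1
  have h3 : 0 < (t.filter fun j => (f j).1 = (f i).1).card :=
    card_pos.2 ⟨i, mem_filter.2 ⟨hi, rfl⟩⟩
  have h4 : (t.filter fun j => (f j).1 = (f i).1).card ≤ p ^ e (f i).1 - 1 := by
    have h5 : (t.filter fun j => (f j).1 = (f i).1).card ≤
        (univ : Finset (Fin (p ^ e (f i).1 - 1))).card := by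
      have key : ∀ j ∈ t.filter fun j => (f j).1 = (f i).1, ∃ a : Fin (p ^ e (f i).1 - 1),
          f j = ⟨(f i).1, a⟩ := by
        intro j hj
        have h6 := (mem_filter.1 hj).2
        generalize hfj : f j = x at h6 ⊢
        obtain ⟨k, a⟩ := x
        simp only at h6
        subst h6
        exact ⟨a, rfl⟩
      have hne : Nonempty (Fin (p ^ e (f i).1 - 1)) := ⟨(f i).2⟩
      choose! F hF using key
      refine card_le_card_of_injOn F (fun _ _ => mem_univ _) fun j hj j' hj' hjj => ?_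
      exact f.injective (by rw [hF j hj, hF j' hj', hjj])
    rwa [card_univ, Fintype.card_fin] at h5
  have h5 := Nat.le_of_dvd h3 h1
  have h6 : 0 < p ^ e (f i).1 := pow_pos hp.out.pos _
  omega

/-- **Olson's theorem** (1969): the Davenport constant of the `p`-group `∏ ℤ/p ^ e_k` is
`1 + ∑ (p ^ e_k - 1)`. -/
theorem olson {p : ℕ} [hp : Fact p.Prime] {κ : Type*} [Fintype κ] (e : κ → ℕ) :
    IsLeast {N : ℕ | ∀ g : Fin N → (k : κ) → ZMod (p ^ e k), ∃ t : Finset (Fin N),
      t.Nonempty ∧ ∑ i ∈ t, g i = 0} (1 + ∑ k, (p ^ e k - 1)) := by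
  classical
  constructor
  · intro g
    obtain ⟨t, -, h1, h2⟩ := exists_zero_sum_of_card e g univ (by
      rw [card_univ, Fintype.card_fin]
      omega)
    exact ⟨t, h1, h2⟩
  · intro N hN
    by_contra hcon
    obtain ⟨g, hg⟩ := exists_no_zero_sum (p := p) e (N := N) (by omega)
    obtain ⟨t, h1, h2⟩ := hN g
    exact hg t h1 h2

/-- Olson's theorem for a finite abelian group with a given decomposition. -/
theorem olson_of_addEquiv {p : ℕ} [hp : Fact p.Prime] {κ : Type*} [Fintype κ] (e : κ → ℕ)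
    {G : Type*} [AddCommGroup G] (φ : G ≃+ ((k : κ) → ZMod (p ^ e k))) :
    IsLeast {N : ℕ | ∀ g : Fin N → G, ∃ t : Finset (Fin N),
      t.Nonempty ∧ ∑ i ∈ t, g i = 0} (1 + ∑ k, (p ^ e k - 1)) := by
  have h := olson (p := p) e
  convert h using 2
  ext N
  constructor
  · intro h1 g
    obtain ⟨t, h2, h3⟩ := h1 fun i => φ.symm (g i)
    refine ⟨t, h2, ?_⟩
    rw [← map_sum] at h3
    exact (map_eq_zero_iff φ.symm φ.symm.injective).1 h3
  · intro h1 g
    obtain ⟨t, h2, h3⟩ := h1 fun i => φ (g i)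
    refine ⟨t, h2, ?_⟩
    rw [← map_sum] at h3
    exact (map_eq_zero_iff φ φ.injective).1 h3

end Fermat.Agent.Cor.Kemnitz

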