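import Fermat.Agent.Corollaries.Kemnitz.Olson

/-!
# The Davenport constant of `ℤ/n × ℤ/m`, `n ∣ m` (Olson 1969, van Emde Boas, Kruyswijk)

Among `n + m - 1` elements of `ℤ/n × ℤ/m`, `n ∣ m`, there are some (at least one) with sum `0`;
for `n + m - 2` elements this is false.
-/

set_option autoImplicit false

namespace Fermat.Agent.Cor.Kemnitz

open Finset

universe u

/-- Olson's theorem for integral vectors. -/
theorem exists_dvd_of_card {p : ℕ} [hp : Fact p.Prime] {κ : Type*} [Fintype κ] (e : κ → ℕ)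
    {ι : Type*} (v : ι → κ → ℤ) (s : Finset ι) (hs : ∑ k, (p ^ e k - 1) < s.card) :
    ∃ t ⊆ s, t.Nonempty ∧ ∀ k, ((p ^ e k : ℕ) : ℤ) ∣ ∑ i ∈ t, v i k := by
  obtain ⟨t, ht, h1, h2⟩ := exists_zero_sum_of_card e (fun i k => (v i k : ZMod (p ^ e k))) s hs
  refine ⟨t, ht, h1, fun k => ?_⟩
  have h3 := congrFun h2 k
  rw [Finset.sum_apply, Pi.zero_apply, ← Int.cast_sum] at h3
  exact (ZMod.intCast_zmod_eq_zero_iff_dvd _ _).1 h3

namespace Two

variable {p : ℕ} [hp : Fact p.Prime]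

theorem exists_plane {ι : Type*} (a b : ι → ℤ) (s : Finset ι) (hs : 2 * p - 1 ≤ s.card) :
    ∃ t ⊆ s, t.Nonempty ∧ (p : ℤ) ∣ ∑ i ∈ t, a i ∧ (p : ℤ) ∣ ∑ i ∈ t, b i := by
  have hp2 := hp.out.two_le
  obtain ⟨t, h1, h2, h3⟩ := exists_dvd_of_card (p := p) (κ := Fin 2) (fun _ => 1)
    (fun i => ![a i, b i]) s (by
      rw [Fin.sum_univ_two, pow_one]
      omega)
  have h4 := h3 0
  have h5 := h3 1
  rw [pow_one] at h4 h5
  exact ⟨t, h1, h2, h4, h5⟩

/-- among `3 p - 2` vectors there are at most `p` (at least one) with sum `0` modulo `p` -/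
theorem exists_short {ι : Type*} (a b : ι → ℤ) (s : Finset ι) (hs : 3 * p - 2 ≤ s.card) :
    ∃ t ⊆ s, t.Nonempty ∧ t.card ≤ p ∧ (p : ℤ) ∣ ∑ i ∈ t, a i ∧ (p : ℤ) ∣ ∑ i ∈ t, b i := by
  classical
  have hp2 := hp.out.two_le
  obtain ⟨s', hs', hc⟩ := exists_subset_card_eq hs
  obtain ⟨t, h1, h2, h3⟩ := exists_dvd_of_card (p := p) (κ := Fin 3) (fun _ => 1)
    (fun i => ![a i, b i, 1]) s' (by
      rw [Fin.sum_univ_three, pow_one]
      omega)
  have h4 := h3 0
  have h5 := h3 1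
  have h6 := h3 2
  rw [pow_one] at h4 h5 h6
  have h4' : (p : ℤ) ∣ ∑ i ∈ t, a i := h4
  have h5' : (p : ℤ) ∣ ∑ i ∈ t, b i := h5
  have h6' : (p : ℤ) ∣ ∑ i ∈ t, (1 : ℤ) := h6
  rw [sum_const, nsmul_eq_mul, mul_one, Int.natCast_dvd_natCast] at h6'
  have h7 := card_le_card h1
  have h8 := card_pos.2 h2
  obtain ⟨c, hc'⟩ := h6'
  have hc3 : c < 3 := by
    by_contra hcon
    push Not at hcon
    have := Nat.mul_le_mul_left p hcon
    omega
  have hc0 : c ≠ 0 := by
    rintro rfl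
    omega
  have hc12 : c = 1 ∨ c = 2 := by omega
  rcases hc12 with rfl | rfl
  · exact ⟨t, h1.trans hs', h2, by omega, h4', h5'⟩
  · obtain ⟨t', ht', hct⟩ := exists_subset_card_eq (s := t) (n := 2 * p - 1) (by omega)
    obtain ⟨w, hw, hw1, hw2, hw3⟩ := exists_plane (p := p) a b t' (by omega)
    have hwt : w ⊆ t := hw.trans ht'
    have h9 := card_le_card hw
    have h10 := card_pos.2 hw1
    by_cases hwp : w.card ≤ p
    · exact ⟨w, hwt.trans (h1.trans hs'), hw1, hwp, hw2, hw3⟩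
    · have h11 := card_sdiff_add_card_eq_card hwt
      refine ⟨t \ w, sdiff_subset.trans (h1.trans hs'), card_pos.1 (by omega), by omega, ?_, ?_⟩
      · have h12 := sum_sdiff (f := a) hwt
        exact (dvd_add_left hw2).1 (h12 ▸ h4')
      · have h12 := sum_sdiff (f := b) hwt
        exact (dvd_add_left hw3).1 (h12 ▸ h5')

/-- disjoint subsets with sum `0` modulo `p` -/
theorem extract {ι : Type*} [DecidableEq ι] (a b : ι → ℤ) (s : Finset ι) (k : ℕ)
    (hs : p * (k + 2) - 1 ≤ s.card) (j : ℕ) (hj : j ≤ k) :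
    ∃ T : Finset (Finset ι), T.card = j ∧ (∀ x ∈ T, ∀ y ∈ T, x ≠ y → Disjoint x y) ∧
      ∀ t ∈ T, t ⊆ s ∧ t.Nonempty ∧ t.card ≤ p ∧
        (p : ℤ) ∣ ∑ i ∈ t, a i ∧ (p : ℤ) ∣ ∑ i ∈ t, b i := by
  have hp2 := hp.out.two_le
  induction j with
  | zero => exact ⟨∅, card_empty, by simp, by simp⟩
  | succ j ih =>
    obtain ⟨T, hT1, hT2, hT3⟩ := ih (by omega)
    set U := T.biUnion (fun t => t) with hU
    have hUs : U ⊆ s := biUnion_subset.2 fun t ht => (hT3 t ht).1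
    have hUc : U.card ≤ j * p := by
      rw [← hT1]
      exact card_biUnion_le_card_mul _ _ _ fun t ht => (hT3 t ht).2.2.1
    have h1 := card_sdiff_add_card_eq_card hUs
    have h2 : j * p + 3 * p ≤ p * (k + 2) := by
      have h3 : (j + 3) * p ≤ (k + 2) * p := Nat.mul_le_mul_right p (by omega)
      nlinarith
    obtain ⟨t, ht, ht1, ht2, ht3, ht4⟩ := exists_short (p := p) a b (s \ U) (by omega)
    have hd : ∀ x ∈ T, Disjoint t x := fun x hx =>
      Disjoint.mono ht (subset_biUnion_of_mem (fun t => t) hx) sdiff_disjoint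
    have htT : t ∉ T := fun h => by
      have h4 := hd t h
      rw [disjoint_self] at h4
      exact ht1.ne_empty h4
    refine ⟨insert t T, by rw [card_insert_of_notMem htT, hT1], ?_, ?_⟩
    · intro x hx y hy hxy
      rcases mem_insert.1 hx with rfl | hx' <;> rcases mem_insert.1 hy with rfl | hy'
      · exact absurd rfl hxy
      · exact hd y hy'
      · exact (hd x hx').symm
      · exact hT2 x hx' y hy' hxy
    · intro x hx
      rcases mem_insert.1 hx with rfl | hx'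
      · exact ⟨ht.trans sdiff_subset, ht1, ht2, ht3, ht4⟩
      · exact hT3 x hx'

/-- one more subset -/
theorem extract' {ι : Type*} [DecidableEq ι] (a b : ι → ℤ) (s : Finset ι) (k : ℕ)
    (hs : p * (k + 2) - 1 ≤ s.card) :
    ∃ T : Finset (Finset ι), T.card = k + 1 ∧ (∀ x ∈ T, ∀ y ∈ T, x ≠ y → Disjoint x y) ∧
      ∀ t ∈ T, t ⊆ s ∧ t.Nonempty ∧ (p : ℤ) ∣ ∑ i ∈ t, a i ∧ (p : ℤ) ∣ ∑ i ∈ t, b i := by
  have hp2 := hp.out.two_le
  obtain ⟨T, hT1, hT2, hT3⟩ := extract (p := p) a b s k hs k le_rfl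
  set U := T.biUnion (fun t => t) with hU
  have hUs : U ⊆ s := biUnion_subset.2 fun t ht => (hT3 t ht).1
  have hUc : U.card ≤ k * p := by
    conv_rhs => rw [← hT1]
    exact card_biUnion_le_card_mul _ _ _ fun t ht => (hT3 t ht).2.2.1
  have h1 := card_sdiff_add_card_eq_card hUs
  have h2 : k * p + 2 * p = p * (k + 2) := by ring
  obtain ⟨t, ht, ht1, ht3, ht4⟩ := exists_plane (p := p) a b (s \ U) (by omega)
  have hd : ∀ x ∈ T, Disjoint t x := fun x hx =>
    Disjoint.mono ht (subset_biUnion_of_mem (fun t => t) hx) sdiff_disjoint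
  have htT : t ∉ T := fun h => by
    have h4 := hd t h
    rw [disjoint_self] at h4
    exact ht1.ne_empty h4
  refine ⟨insert t T, by rw [card_insert_of_notMem htT, hT1], ?_, ?_⟩
  · intro x hx y hy hxy
    rcases mem_insert.1 hx with rfl | hx' <;> rcases mem_insert.1 hy with rfl | hy'
    · exact absurd rfl hxy
    · exact hd y hy'
    · exact (hd x hx').symm
    · exact hT2 x hx' y hy' hxy
  · intro x hx
    rcases mem_insert.1 hx with rfl | hx'
    · exact ⟨ht.trans sdiff_subset, ht1, ht3, ht4⟩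
    · exact ⟨(hT3 x hx').1, (hT3 x hx').2.1, (hT3 x hx').2.2.2⟩

/-- the statement for `n`, `m` -/
def Q (n m : ℕ) : Prop := ∀ (ι : Type u) (a b : ι → ℤ) (s : Finset ι), n + m - 1 ≤ s.card →
  ∃ t ⊆ s, t.Nonempty ∧ (n : ℤ) ∣ ∑ i ∈ t, a i ∧ (m : ℤ) ∣ ∑ i ∈ t, b i

theorem Q_one {m : ℕ} (hm : 0 < m) : Q.{u} 1 m := by
  intro ι a b s hs
  classical
  obtain ⟨t, ht, htc, hts⟩ := Int.erdos_ginzburg_ziv (n := m)
    (s := s.disjSum (univ : Finset (Fin (m - 1)))) (Sum.elim b fun _ => 0) (by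
      rw [card_disjSum, card_univ, Fintype.card_fin]
      omega)
  have h1 := card_toLeft_add_card_toRight (u := t)
  have h2 : t.toRight.card ≤ m - 1 := by
    have := card_le_univ t.toRight
    rwa [Fintype.card_fin] at this
  refine ⟨t.toLeft, ?_, card_pos.1 (by omega), by simp, ?_⟩
  · intro i hi
    have h3 := ht (mem_toLeft.1 hi)
    exact inl_mem_disjSum.1 h3
  · have h3 : ∑ i ∈ t, (Sum.elim b (fun _ => 0) : ι ⊕ Fin (m - 1) → ℤ) i =
        ∑ i ∈ t.toLeft, b i := by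
      conv_lhs => rw [← toLeft_disjSum_toRight (u := t)]
      rw [sum_disjSum]
      simp
    rwa [h3] at hts

theorem Q_mul {n m : ℕ} (hn : 0 < n) (hm : 0 < m) (h : Q.{u} n m) : Q.{u} (p * n) (p * m) := by
  intro ι a b s hs
  classical
  obtain ⟨k, hk⟩ : ∃ k, n + m = k + 2 := ⟨n + m - 2, by omega⟩
  obtain ⟨T, hT1, hT2, hT3⟩ := extract' (p := p) a b s k (by
    rw [← hk, mul_add]
    exact hs)
  obtain ⟨T', hT', h1, h2, h3⟩ := h (Finset ι) (fun t => (∑ i ∈ t, a i) / p)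
    (fun t => (∑ i ∈ t, b i) / p) T (by omega)
  have hdis : Set.PairwiseDisjoint (T' : Set (Finset ι)) fun t => t := fun x hx y hy hxy =>
    hT2 x (hT' hx) y (hT' hy) hxy
  refine ⟨T'.biUnion fun t => t, biUnion_subset.2 fun t ht => (hT3 t (hT' ht)).1, ?_, ?_, ?_⟩
  · obtain ⟨t, ht⟩ := h1
    obtain ⟨i, hi⟩ := (hT3 t (hT' ht)).2.1
    exact ⟨i, mem_biUnion.2 ⟨t, ht, hi⟩⟩
  · rw [sum_biUnion hdis]
    have h4 : ∑ t ∈ T', ∑ i ∈ t, a i = p * ∑ t ∈ T', (∑ i ∈ t, a i) / p := by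
      rw [mul_sum]
      exact sum_congr rfl fun t ht => (Int.mul_ediv_cancel' (hT3 t (hT' ht)).2.2.1).symm
    rw [h4]
    push_cast
    exact mul_dvd_mul_left _ h2
  · rw [sum_biUnion hdis]
    have h4 : ∑ t ∈ T', ∑ i ∈ t, b i = p * ∑ t ∈ T', (∑ i ∈ t, b i) / p := by
      rw [mul_sum]
      exact sum_congr rfl fun t ht => (Int.mul_ediv_cancel' (hT3 t (hT' ht)).2.2.2).symm
    rw [h4]
    push_cast
    exact mul_dvd_mul_left _ h3

theorem Q_all : ∀ (n m : ℕ), 0 < n → 0 < m → n ∣ m → Q.{u} n m := by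
  intro n
  induction n using Nat.strong_induction_on with
  | _ n ih =>
    intro m hn hm h
    rcases eq_or_ne n 1 with rfl | h1
    · exact Q_one hm
    · obtain ⟨q, hq, hqn⟩ := Nat.exists_prime_and_dvd h1
      have : Fact q.Prime := ⟨hq⟩
      obtain ⟨n', rfl⟩ := hqn
      obtain ⟨m', rfl⟩ := (dvd_mul_right q n').trans h
      have hn' : 0 < n' := Nat.pos_of_mul_pos_left hn
      have hm' : 0 < m' := Nat.pos_of_mul_pos_left hm
      refine Q_mul hn' hm' (ih n' ?_ m' hn' hm' (Nat.dvd_of_mul_dvd_mul_left hq.pos h))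
      have := hq.two_le
      nlinarith

end Two

/-- **Olson's second theorem, integral form**: `n ∣ m`; among `n + m - 1` vectors `(a, b)` of `ℤ ^ 2`
there are some (at least one) with `n ∣ ∑ a` and `m ∣ ∑ b`. -/
theorem exists_dvd_dvd {n m : ℕ} (hn : 0 < n) (hm : 0 < m) (h : n ∣ m) {ι : Type*} (a b : ι → ℤ)
    (s : Finset ι) (hs : n + m - 1 ≤ s.card) :
    ∃ t ⊆ s, t.Nonempty ∧ (n : ℤ) ∣ ∑ i ∈ t, a i ∧ (m : ℤ) ∣ ∑ i ∈ t, b i :=
  Two.Q_all n m hn hm h ι a b s hs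

/-- the lower bound, every `n`, `m` -/
theorem exists_no_zero_sum_two {n m N : ℕ} (hn : 0 < n) (hm : 0 < m) (hN : N ≤ n + m - 2) :
    ∃ g : Fin N → ZMod n × ZMod m, ∀ t : Finset (Fin N), t.Nonempty → ∑ i ∈ t, g i ≠ 0 := by
  refine ⟨fun i => if i.1 < n - 1 then (1, 0) else (0, 1), fun t ht h => ?_⟩
  have h1 := congrArg Prod.fst h
  have h2 := congrArg Prod.snd h
  rw [Prod.fst_sum] at h1
  rw [Prod.snd_sum] at h2
  have h3 : ∀ i : Fin N, (if i.1 < n - 1 then ((1, 0) : ZMod n × ZMod m) else (0, 1)).1 =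
      if i.1 < n - 1 then 1 else 0 := fun i => by split_ifs <;> rfl
  have h4 : ∀ i : Fin N, (if i.1 < n - 1 then ((1, 0) : ZMod n × ZMod m) else (0, 1)).2 =
      if ¬ i.1 < n - 1 then 1 else 0 := fun i => by split_ifs <;> rfl
  simp only [h3] at h1
  simp only [h4] at h2
  rw [← sum_filter, sum_const, nsmul_eq_mul, mul_one, Prod.fst_zero, ZMod.natCast_eq_zero_iff] at h1
  rw [← sum_filter, sum_const, nsmul_eq_mul, mul_one, Prod.snd_zero, ZMod.natCast_eq_zero_iff] at h2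
  have h5 := card_filter_add_card_filter_not (s := t) (fun i : Fin N => i.1 < n - 1)
  have h6 : (t.filter fun i : Fin N => i.1 < n - 1).card ≤ n - 1 := by
    have := card_le_card_of_injOn (s := t.filter fun i : Fin N => i.1 < n - 1) (t := range (n - 1))
      (fun i => i.1) (fun i hi => mem_coe.2 (mem_range.2 (mem_filter.1 hi).2))
      (fun i _ j _ hij => Fin.ext hij)
    rwa [card_range] at this
  have h7 : (t.filter fun i : Fin N => ¬ i.1 < n - 1).card ≤ m - 1 := by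
    have := card_le_card_of_injOn (s := t.filter fun i : Fin N => ¬ i.1 < n - 1)
      (t := Ico (n - 1) N) (fun i => i.1)
      (fun i hi => mem_coe.2 (mem_Ico.2 ⟨not_lt.1 (mem_filter.1 hi).2, i.2⟩))
      (fun i _ j _ hij => Fin.ext hij)
    rw [Nat.card_Ico] at this
    omega
  have h8 : (t.filter fun i : Fin N => i.1 < n - 1).card = 0 :=
    Nat.eq_zero_of_dvd_of_lt h1 (by omega)
  have h9 : (t.filter fun i : Fin N => ¬ i.1 < n - 1).card = 0 :=
    Nat.eq_zero_of_dvd_of_lt h2 (by omega)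
  have h10 := card_pos.2 ht
  omega

/-- **Olson's second theorem** (1969): the Davenport constant of `ℤ/n × ℤ/m`, `n ∣ m`, is
`n + m - 1`. -/
theorem olson_two {n m : ℕ} (hn : 0 < n) (hm : 0 < m) (h : n ∣ m) :
    IsLeast {N : ℕ | ∀ g : Fin N → ZMod n × ZMod m, ∃ t : Finset (Fin N),
      t.Nonempty ∧ ∑ i ∈ t, g i = 0} (n + m - 1) := by
  constructor
  · intro g
    choose a ha using fun i => ZMod.intCast_surjective (g i).1
    choose b hb using fun i => ZMod.intCast_surjective (g i).2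
    obtain ⟨t, -, h1, h2, h3⟩ := exists_dvd_dvd hn hm h a b univ (by
      rw [card_univ, Fintype.card_fin])
    refine ⟨t, h1, Prod.ext ?_ ?_⟩
    · rw [Prod.fst_sum, Prod.fst_zero, ← (ZMod.intCast_zmod_eq_zero_iff_dvd _ _).2 h2,
        Int.cast_sum]
      exact sum_congr rfl fun i _ => (ha i).symm
    · rw [Prod.snd_sum, Prod.snd_zero, ← (ZMod.intCast_zmod_eq_zero_iff_dvd _ _).2 h3,
        Int.cast_sum]
      exact sum_congr rfl fun i _ => (hb i).symm
  · intro N hN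
    by_contra hcon
    obtain ⟨g, hg⟩ := exists_no_zero_sum_two (N := N) hn hm (by omega)
    obtain ⟨t, h1, h2⟩ := hN g
    exact hg t h1 h2

end Fermat.Agent.Cor.Kemnitz
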