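import Fermat.Agent.Corollaries.Kemnitz.Count

/-!
# Kemnitz' conjecture for primes (Reiher)
-/

namespace Fermat.Agent.Cor.Kemnitz

open Finset

section

variable {p : ℕ} [hp : Fact p.Prime] {ι : Type*} [DecidableEq ι] (v : ι → ZMod p × ZMod p)

theorem N_eq_zero_of {k : ℕ} {s : Finset ι}
    (h : ∀ t ⊆ s, t.card = k → ∑ i ∈ t, v i ≠ 0) : N v k s = 0 := by
  rw [N]
  refine sum_eq_zero fun t ht => if_neg ?_
  obtain ⟨h1, h2⟩ := mem_powersetCard.1 ht
  exact h t h1 h2

theorem exists_of_N_ne_zero {k : ℕ} {s : Finset ι} (h : N v k s ≠ 0) :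
    ∃ t ⊆ s, t.card = k ∧ ∑ i ∈ t, v i = 0 := by
  by_contra hcon
  push Not at hcon
  exact h (N_eq_zero_of v hcon)

/-- the number of the sets between two sets -/
theorem card_superset {t X : Finset ι} {m : ℕ} (htX : t ⊆ X) (htm : t.card ≤ m) :
    ((X.powersetCard m).filter (fun I => t ⊆ I)).card = (X.card - t.card).choose (m - t.card) := by
  rw [← card_sdiff_of_subset htX, ← card_powersetCard]
  refine card_nbij' (fun I => I \ t) (fun J => J ∪ t) ?_ ?_ ?_ ?_
  · intro I hI
    obtain ⟨hI1, hI2⟩ := mem_filter.1 hI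
    obtain ⟨hI3, hI4⟩ := mem_powersetCard.1 hI1
    refine mem_powersetCard.2 ⟨sdiff_subset_sdiff hI3 (subset_refl t), ?_⟩
    rw [card_sdiff_of_subset hI2, hI4]
  · intro J hJ
    obtain ⟨hJ1, hJ2⟩ := mem_powersetCard.1 hJ
    have hdisj : Disjoint J t := (subset_sdiff.1 hJ1).2
    refine mem_filter.2 ⟨mem_powersetCard.2 ⟨union_subset (subset_sdiff.1 hJ1).1 htX, ?_⟩,
      subset_union_right⟩
    rw [card_union_of_disjoint hdisj, hJ2]
    omega
  · intro I hI
    exact sdiff_union_of_subset (mem_filter.1 hI).2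
  · intro J hJ
    have hdisj : Disjoint J t := (subset_sdiff.1 (mem_powersetCard.1 hJ).1).2
    exact union_sdiff_cancel_right hdisj

theorem sum_N {k m : ℕ} (X : Finset ι) (hkm : k ≤ m) :
    ∑ I ∈ X.powersetCard m, N v k I = ((X.card - k).choose (m - k) : ZMod p) * N v k X := by
  have h1 : ∀ I ∈ X.powersetCard m, N v k I =
      ∑ t ∈ X.powersetCard k, if t ⊆ I ∧ ∑ i ∈ t, v i = 0 then 1 else 0 := by
    intro I hI
    have hIX := (mem_powersetCard.1 hI).1
    rw [N, ← sum_filter, ← sum_filter]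
    congr 1
    ext t
    simp only [mem_filter, mem_powersetCard]
    constructor
    · rintro ⟨⟨h1, h2⟩, h3⟩
      exact ⟨⟨h1.trans hIX, h2⟩, h1, h3⟩
    · rintro ⟨⟨_, h2⟩, h1, h3⟩
      exact ⟨⟨h1, h2⟩, h3⟩
  rw [sum_congr rfl h1, sum_comm, N, mul_sum]
  refine sum_congr rfl fun t ht => ?_
  obtain ⟨ht1, ht2⟩ := mem_powersetCard.1 ht
  by_cases hz : ∑ i ∈ t, v i = 0
  · simp only [hz, and_true, if_true, mul_one]
    rw [← sum_filter, sum_const, nsmul_eq_mul, mul_one, card_superset ht1 (by omega), ht2]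
  · simp [hz]

/-- `C(n, p) ≡ n / p` modulo `p` -/
theorem choose_p (n : ℕ) : ((n.choose p : ℕ) : ZMod p) = ((n / p : ℕ) : ZMod p) := by
  have h1 := Choose.choose_modEq_choose_mod_mul_choose_div_nat (n := n) (k := p) (p := p)
  rw [Nat.mod_self, Nat.choose_zero_right, one_mul, Nat.div_self hp.out.pos,
    Nat.choose_one_right] at h1
  exact (ZMod.natCast_eq_natCast_iff _ _ _).2 h1

theorem choose_eq {n m q : ℕ} (h : n = m + p) (h1 : q * p ≤ n) (h2 : n < (q + 1) * p) :
    ((n.choose m : ℕ) : ZMod p) = (q : ZMod p) := by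
  have h3 : n.choose m = n.choose p := Nat.choose_symm_of_eq_add h
  have h4 : n / p = q := by
    refine Nat.div_eq_of_lt_le h1 h2
  rw [h3, choose_p, h4]

variable (hodd : Odd p)
include hodd

theorem three_le : 3 ≤ p := by
  have := hp.out.two_le
  obtain ⟨a, ha⟩ := hodd
  omega

/-- corollary 5 -/
theorem cor_five {X : Finset ι} (hX : X.card = 4 * p - 3) :
    3 - 2 * N v (p - 1) X - 2 * N v p X + N v (2 * p - 1) X + N v (2 * p) X = 0 := by
  have h3 := three_le hodd
  have h1 : ∀ I ∈ X.powersetCard (3 * p - 3),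
      1 - N v p I + N v (2 * p) I - N v (p - 1) I + N v (2 * p - 1) I = 0 := by
    intro I hI
    have hc := (mem_powersetCard.1 hI).2
    have e1 := E_zero_eq_one v (s := I) (by omega)
    rw [E_zero_eq v hodd (by omega), E_one_eq v hodd (by omega), N_eq_zero v (k := 3 * p) (by omega),
      N_eq_zero v (k := 3 * p - 1) (by omega)] at e1
    linear_combination e1
  have h2 := sum_congr rfl h1
  rw [sum_const_zero] at h2
  simp only [sum_add_distrib, sum_sub_distrib] at h2
  rw [sum_N v X (by omega), sum_N v X (by omega), sum_N v X (by omega), sum_N v X (by omega),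
    sum_const, card_powersetCard, nsmul_eq_mul, mul_one, hX] at h2
  rw [choose_eq (q := 3) (by omega) (by omega) (by omega),
    choose_eq (q := 2) (by omega) (by omega) (by omega),
    choose_eq (q := 1) (by omega) (by omega) (by omega),
    choose_eq (q := 2) (by omega) (by omega) (by omega),
    choose_eq (q := 1) (by omega) (by omega) (by omega)] at h2
  push_cast at h2
  linear_combination h2

/-- for `3 p - 2` or `3 p - 1` elements without zero-sum `p`-subset -/
theorem N_two_p {s : Finset ι} (h1 : 3 * p - 2 ≤ s.card) (h2 : s.card < 3 * p)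
    (h : ∀ t ⊆ s, t.card = p → ∑ i ∈ t, v i ≠ 0) : N v (2 * p) s = -1 := by
  have h3 := three_le hodd
  have e1 := E_eq_zero v (s := s) (by omega) 0
  rw [E_zero_eq v hodd (by omega), N_eq_zero_of v h, N_eq_zero v (k := 3 * p) (by omega)] at e1
  linear_combination e1

/-- Alon and Dubiner -/
theorem alon_dubiner {s : Finset ι} (hs : s.card = 3 * p) (hs0 : ∑ i ∈ s, v i = 0) :
    ∃ t ⊆ s, t.card = p ∧ ∑ i ∈ t, v i = 0 := by
  by_contra hcon
  push Not at hcon
  have h3 := three_le hodd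
  obtain ⟨i, hi⟩ : s.Nonempty := card_pos.1 (by omega)
  have hc : (s.erase i).card = 3 * p - 1 := by rw [card_erase_of_mem hi, hs]
  have h1 := N_two_p v hodd (s := s.erase i) (by omega) (by omega)
    fun t ht => hcon t (ht.trans (erase_subset _ _))
  have h2 : N v (2 * p) (s.erase i) ≠ 0 := by
    rw [h1]
    exact neg_ne_zero.2 one_ne_zero
  obtain ⟨t, ht, htc, ht0⟩ := exists_of_N_ne_zero v h2
  have hts := ht.trans (erase_subset i s)
  refine hcon (s \ t) sdiff_subset ?_ ?_
  · rw [card_sdiff_of_subset hts, hs, htc]; omega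
  · have := sum_sdiff (f := v) hts
    rw [ht0, add_zero, hs0] at this
    exact this

/-- the partition lemma -/
theorem N_eq_N {X : Finset ι} (hX : X.card = 4 * p - 3)
    (h : ∀ t ⊆ X, t.card = p → ∑ i ∈ t, v i ≠ 0) : N v (p - 1) X = N v (3 * p - 1) X := by
  have h3 := three_le hodd
  -- count through `A`
  have h1 : ∑ A ∈ X.powersetCard (p - 1), (if ∑ i ∈ A, v i = 0 then N v (2 * p) (X \ A) else 0) =
      -N v (p - 1) X := by
    rw [N, ← sum_neg_distrib]
    refine sum_congr rfl fun A hA => ?_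
    obtain ⟨hA1, hA2⟩ := mem_powersetCard.1 hA
    split_ifs
    · have hc : (X \ A).card = 3 * p - 2 := by rw [card_sdiff_of_subset hA1, hX, hA2]; omega
      exact N_two_p v hodd (by omega) (by omega) fun t ht => h t (ht.trans sdiff_subset)
    · rw [neg_zero]
  have h2 : ∑ B ∈ X.powersetCard (3 * p - 1), (if ∑ i ∈ B, v i = 0 then N v (2 * p) B else 0) =
      -N v (3 * p - 1) X := by
    rw [N, ← sum_neg_distrib]
    refine sum_congr rfl fun B hB => ?_
    obtain ⟨hB1, hB2⟩ := mem_powersetCard.1 hB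
    split_ifs
    · exact N_two_p v hodd (by omega) (by omega) fun t ht => h t (ht.trans hB1)
    · rw [neg_zero]
  have h4 : ∑ A ∈ X.powersetCard (p - 1), (if ∑ i ∈ A, v i = 0 then N v (2 * p) (X \ A) else 0) =
      ∑ B ∈ X.powersetCard (3 * p - 1), if ∑ i ∈ B, v i = 0 then N v (2 * p) B else 0 := by
    have e1 : ∀ A ∈ X.powersetCard (p - 1),
        (if ∑ i ∈ A, v i = 0 then N v (2 * p) (X \ A) else 0) =
        ∑ C ∈ X.powersetCard (2 * p),
          if Disjoint A C ∧ ∑ i ∈ A, v i = 0 ∧ ∑ i ∈ C, v i = 0 then 1 else 0 := by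
      intro A _
      split_ifs with hA
      · rw [N, ← sum_filter, ← sum_filter]
        congr 1
        ext C
        simp only [mem_filter, mem_powersetCard, subset_sdiff, hA, true_and]
        constructor
        · rintro ⟨⟨⟨a, b⟩, c⟩, d⟩
          exact ⟨⟨a, c⟩, b.symm, d⟩
        · rintro ⟨⟨a, c⟩, b, d⟩
          exact ⟨⟨⟨a, b.symm⟩, c⟩, d⟩
      · simp [hA]
    have e2 : ∀ B ∈ X.powersetCard (3 * p - 1),
        (if ∑ i ∈ B, v i = 0 then N v (2 * p) B else 0) =
        ∑ C ∈ X.powersetCard (2 * p),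
          if C ⊆ B ∧ ∑ i ∈ B, v i = 0 ∧ ∑ i ∈ C, v i = 0 then 1 else 0 := by
      intro B hB
      have hBX := (mem_powersetCard.1 hB).1
      split_ifs with hB0
      · rw [N, ← sum_filter, ← sum_filter]
        congr 1
        ext C
        simp only [mem_filter, mem_powersetCard, hB0, true_and]
        constructor
        · rintro ⟨⟨a, b⟩, c⟩
          exact ⟨⟨a.trans hBX, b⟩, a, c⟩
        · rintro ⟨⟨_, b⟩, a, c⟩
          exact ⟨⟨a, b⟩, c⟩
      · simp [hB0]
    rw [sum_congr rfl e1, sum_congr rfl e2, sum_comm, sum_comm (s := X.powersetCard (3 * p - 1))]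
    refine sum_congr rfl fun C hC => ?_
    obtain ⟨hC1, hC2⟩ := mem_powersetCard.1 hC
    rw [← sum_filter, ← sum_filter, sum_const, sum_const]
    congr 1
    refine card_nbij' (fun A => A ∪ C) (fun B => B \ C) ?_ ?_ ?_ ?_
    · intro A hA
      obtain ⟨hA1, hA2, hA3, hA4⟩ := mem_filter.1 hA
      obtain ⟨hA5, hA6⟩ := mem_powersetCard.1 hA1
      refine mem_filter.2 ⟨mem_powersetCard.2 ⟨union_subset hA5 hC1, ?_⟩, subset_union_right, ?_,
        hA4⟩
      · rw [card_union_of_disjoint hA2, hA6, hC2]; omega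
      · rw [sum_union hA2, hA3, hA4, add_zero]
    · intro B hB
      obtain ⟨hB1, hB2, hB3, hB4⟩ := mem_filter.1 hB
      obtain ⟨hB5, hB6⟩ := mem_powersetCard.1 hB1
      refine mem_filter.2 ⟨mem_powersetCard.2 ⟨sdiff_subset.trans hB5, ?_⟩,
        disjoint_sdiff_self_left, ?_, hB4⟩
      · rw [card_sdiff_of_subset hB2, hB6, hC2]; omega
      · have := sum_sdiff (f := v) hB2
        rw [hB4, add_zero, hB3] at this
        exact this
    · intro A hA
      exact union_sdiff_cancel_right (mem_filter.1 hA).2.1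
    · intro B hB
      exact sdiff_union_of_subset (mem_filter.1 hB).2.1
  rw [h1, h2] at h4
  exact neg_inj.1 h4

theorem exists_of_card_eq {X : Finset ι} (hX : X.card = 4 * p - 3) :
    ∃ t ⊆ X, t.card = p ∧ ∑ i ∈ t, v i = 0 := by
  by_contra hcon
  push Not at hcon
  have h3 := three_le hodd
  have y1 : N v p X = 0 := N_eq_zero_of v hcon
  have y3 : N v (3 * p) X = 0 := by
    refine N_eq_zero_of v fun t ht htc ht0 => ?_
    obtain ⟨t', ht', h4, h5⟩ := alon_dubiner v hodd htc ht0
    exact hcon t' (ht'.trans ht) h4 h5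
  have e1 := E_eq_zero v (s := X) (by omega) 0
  rw [E_zero_eq v hodd (by omega), y1, y3] at e1
  have e2 := E_eq_zero v (s := X) (by omega) 1
  rw [E_one_eq v hodd (by omega)] at e2
  have e3 := cor_five v hodd hX
  rw [y1] at e3
  have e4 := N_eq_N v hodd hX hcon
  have e5 : (2 : ZMod p) = 0 := by
    linear_combination e3 - e1 + e2 + e4
  have e6 : ((2 : ℕ) : ZMod p) = 0 := by exact_mod_cast e5
  rw [ZMod.natCast_eq_zero_iff] at e6
  have := Nat.le_of_dvd two_pos e6
  omega

end

/-- **Kemnitz' conjecture modulo a prime** (Reiher 2007) -/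
theorem exists_zero_sum {p : ℕ} [hp : Fact p.Prime] {ι : Type*} (v : ι → ZMod p × ZMod p)
    (X : Finset ι) (hX : 4 * p - 3 ≤ X.card) : ∃ t ⊆ X, t.card = p ∧ ∑ i ∈ t, v i = 0 := by
  classical
  rcases hp.out.eq_two_or_odd' with h2 | hodd
  · subst h2
    obtain ⟨i, hi, j, hj, hij, hv⟩ := exists_ne_map_eq_of_card_lt_of_maps_to
      (s := X) (t := (univ : Finset (ZMod 2 × ZMod 2))) (f := v)
      (by rw [card_univ, Fintype.card_prod, ZMod.card]; omega) (fun _ _ => mem_univ _)
    refine ⟨{i, j}, insert_subset hi (singleton_subset_iff.2 hj), card_pair hij, ?_⟩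
    rw [sum_pair hij, hv]
    refine Prod.ext ?_ ?_
    · exact CharTwo.add_self_eq_zero _
    · exact CharTwo.add_self_eq_zero _
  · obtain ⟨Y, hY, hYc⟩ := exists_subset_card_eq hX
    obtain ⟨t, ht, h1, h2⟩ := exists_of_card_eq v hodd hYc
    exact ⟨t, ht.trans hY, h1, h2⟩

end Fermat.Agent.Cor.Kemnitz
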