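import Fermat.Agent.Corollaries.Kemnitz.Main

/-!
# Kemnitz' conjecture: the number `4 n - 3` is sharp
-/

set_option autoImplicit false

namespace Fermat.Agent.Cor.Kemnitz

open Finset

/-- Each of the four points `(0, 0), (1, 0), (0, 1), (1, 1)` taken `n - 1` times. -/
theorem exists_no_centroid {n N : ℕ} (hn : 0 < n) (hN : N ≤ 4 * (n - 1)) :
    ∃ v : Fin N → ℤ × ℤ, ∀ t : Finset (Fin N), t.card = n → (n : ℤ) ∣ ∑ i ∈ t, (v i).1 →
      ¬ (n : ℤ) ∣ ∑ i ∈ t, (v i).2 := by
  refine ⟨fun i => (if i.1 % 2 = 1 then 1 else 0, if i.1 / 2 % 2 = 1 then 1 else 0),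
    fun t ht h1 h2 => ?_⟩
  simp only at h1 h2
  rw [← sum_filter, sum_const, nsmul_eq_mul, mul_one, Int.natCast_dvd_natCast] at h1 h2
  have key : ∀ (P : Fin N → Prop) [DecidablePred P], n ∣ (t.filter P).card →
      (∀ i ∈ t, P i) ∨ ∀ i ∈ t, ¬ P i := by
    intro P _ hP
    have h3 : (t.filter P).card ≤ n := ht ▸ card_filter_le t P
    rcases Nat.eq_zero_or_pos (t.filter P).card with h4 | h4
    · right
      intro i hi hPi
      have h5 : i ∈ t.filter P := mem_filter.2 ⟨hi, hPi⟩
      rw [card_eq_zero.1 h4] at h5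
      exact absurd h5 (notMem_empty i)
    · left
      have h5 := Nat.le_of_dvd h4 hP
      have h6 : t.filter P = t := eq_of_subset_of_card_le (filter_subset _ _) (by omega)
      intro i hi
      rw [← h6] at hi
      exact (mem_filter.1 hi).2
  have hc : ∃ c, ∀ i ∈ t, i.1 % 4 = c := by
    rcases key _ h1 with h3 | h3 <;> rcases key _ h2 with h4 | h4
    · exact ⟨3, fun i hi => by have := h3 i hi; have := h4 i hi; omega⟩
    · exact ⟨1, fun i hi => by have := h3 i hi; have := h4 i hi; omega⟩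
    · exact ⟨2, fun i hi => by have := h3 i hi; have := h4 i hi; omega⟩
    · exact ⟨0, fun i hi => by have := h3 i hi; have := h4 i hi; omega⟩
  obtain ⟨c, hc⟩ := hc
  have h3 : t.card ≤ (range (n - 1)).card := by
    refine card_le_card_of_injOn (fun i : Fin N => i.1 / 4) (fun i _ => ?_) fun i hi j hj hij => ?_
    · have := i.2
      have h4 : i.1 / 4 < n - 1 := by omega
      exact mem_coe.2 (mem_range.2 h4)
    · have h4 := hc i hi
      have h5 := hc j hj
      simp only at hij
      exact Fin.ext (by omega)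
  rw [card_range, ht] at h3
  omega

/-- **Kemnitz' conjecture, sharp form** (Reiher 2007): `4 n - 3` is the least `N` such that among
`N` points of `ℤ ^ 2` there are always `n` points whose centroid is in `ℤ ^ 2`. -/
theorem kemnitz_isLeast {n : ℕ} (hn : 0 < n) :
    IsLeast {N : ℕ | ∀ v : Fin N → ℤ × ℤ, ∃ t : Finset (Fin N), t.card = n ∧
      (n : ℤ) ∣ ∑ i ∈ t, (v i).1 ∧ (n : ℤ) ∣ ∑ i ∈ t, (v i).2} (4 * n - 3) := by
  constructor
  · intro v
    obtain ⟨t, -, h1, h2, h3⟩ := kemnitz n v univ (by rw [card_univ, Fintype.card_fin])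
    exact ⟨t, h1, h2, h3⟩
  · intro N hN
    by_contra hcon
    obtain ⟨v, hv⟩ := exists_no_centroid (N := N) hn (by omega)
    obtain ⟨t, h1, h2, h3⟩ := hN v
    exact hv t h1 h2 h3

end Fermat.Agent.Cor.Kemnitz
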